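import Mathlib
import Fermat.Agent.MUL.Orig.S18.KeySetup
import Fermat.Agent.MUL.Lib.RR.NonSpecial
import Fermat.Agent.MUL.Lib.Kronecker.ConjGens

section MergeWrap_S18_NSBuild -- from S18/NSBuild.lean

set_option autoImplicit false

/-!
# S18 / cluster B: construction of `NSData` from the genus inequality (helper7)

Input: a reduction package `S : RedSetup K F k Fk`, Riemann-Roch on `Fk`, `g ≤ genusFF k Fk`,
and a *base function* `x ∈ Ov` (in the application `x = j`, or the Hauptmodul of an auxiliary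
level) such that
* poles of `x` reduce to poles of `ρ x` (no cancellation),
* outside a finite set `bad` of places of `Fk`, `ρ x` is regular and unramified.

Output: `NSData S g` (the input of helper61's KEY LEMMA).
-/

noncomputable section

open AlgebraicCurve

namespace Fermat.Agent.S18Key

open Fermat.Agent.RR

variable {K F k Fk : Type*} [Field K] [Field F] [Algebra K F] [Field k] [Field Fk] [Algebra k Fk]

/-- if the push-forward of a divisor is positive at `Q`, some point above `Q` has positive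
coefficient. -/
theorem exists_of_mapDomain_pos {α β : Type*} (r : α → β) (D : α →₀ ℤ) (Q : β)
    (h : 0 < Finsupp.mapDomain r D Q) : ∃ P, r P = Q ∧ 0 < D P := by
  classical
  by_contra hcon
  push Not at hcon
  have : Finsupp.mapDomain r D Q ≤ 0 := by
    rw [Finsupp.mapDomain, Finsupp.sum_apply, Finsupp.sum]
    apply Finset.sum_nonpos
    intro a _
    rw [Finsupp.single_apply]
    split_ifs with h1
    · exact hcon a h1
    · exact le_rfl
  omega

/-- the value of a function at a place is unique. -/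
theorem value_unique (Q : Place k Fk) (y : Fk) {c c' : k}
    (h1 : 0 < Q.ord (y - algebraMap k Fk c)) (h2 : 0 < Q.ord (y - algebraMap k Fk c')) :
    c = c' := by
  by_contra hne
  have hne1 : y - algebraMap k Fk c ≠ 0 := by
    intro h0; rw [h0] at h1; simp at h1
  have hne2 : y - algebraMap k Fk c' ≠ 0 := by
    intro h0; rw [h0] at h2; simp at h2
  have hm1 : y - algebraMap k Fk c ∈ Q.toValuationSubring :=
    Fermat.Agent.S24Res.mem_of_ord_nonneg Q h1.le
  have hm2 : y - algebraMap k Fk c' ∈ Q.toValuationSubring :=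
    Fermat.Agent.S24Res.mem_of_ord_nonneg Q h2.le
  have hi1 : (⟨_, hm1⟩ : Q.toValuationSubring) ∈ IsLocalRing.maximalIdeal Q.toValuationSubring :=
    (Fermat.Agent.S24Res.mem_maximalIdeal_iff_ord_pos Q
      (a := ⟨_, hm1⟩) (fun h => hne1 (congrArg Subtype.val h))).mpr h1
  have hi2 : (⟨_, hm2⟩ : Q.toValuationSubring) ∈ IsLocalRing.maximalIdeal Q.toValuationSubring :=
    (Fermat.Agent.S24Res.mem_maximalIdeal_iff_ord_pos Q
      (a := ⟨_, hm2⟩) (fun h => hne2 (congrArg Subtype.val h))).mpr h2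
  have hsub := Ideal.sub_mem _ hi2 hi1
  have hcc : c - c' ≠ 0 := sub_ne_zero.mpr hne
  have hu : IsUnit (algebraMap k Q.toValuationSubring (c - c')) :=
    (isUnit_iff_ne_zero.mpr hcc).map _
  have heq : (⟨_, hm2⟩ : Q.toValuationSubring) - ⟨_, hm1⟩ =
      algebraMap k Q.toValuationSubring (c - c') := by
    apply Subtype.ext
    show (y - algebraMap k Fk c') - (y - algebraMap k Fk c) = algebraMap k Fk (c - c')
    rw [map_sub]; ring
  rw [heq] at hsub
  exact (IsLocalRing.mem_maximalIdeal _).mp hsub hu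

/-- A base function for the construction of `NSData`. -/
structure BaseFn (S : RedSetup K F k Fk) where
  /-- the function (`j`, or a Hauptmodul) -/
  x : F
  x_mem : x ∈ S.Ov
  /-- poles of `x` reduce to poles of `ρ x` -/
  no_cancel : ∀ P : Place K F, P.ord x < 0 → (S.r P).ord (S.ρ ⟨x, x_mem⟩) < 0
  /-- `ρ x` is not constant -/
  nonconst : ∀ c : k, S.ρ ⟨x, x_mem⟩ ≠ algebraMap k Fk c
  /-- the bad places: poles and ramified places of `ρ x` -/
  bad : Finset (Place k Fk)
  regular : ∀ Q, Q ∉ bad → 0 ≤ Q.ord (S.ρ ⟨x, x_mem⟩)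
  unramified : ∀ Q, Q ∉ bad → ∀ c : k, 0 < Q.ord (S.ρ ⟨x, x_mem⟩ - algebraMap k Fk c) →
    Q.ord (S.ρ ⟨x, x_mem⟩ - algebraMap k Fk c) = 1

/-- an element of `Ov` with nonzero reduction is a unit of `Ov`. -/
theorem inv_mem_of_rho_ne_zero (S : RedSetup K F k Fk) {f : F} (hf : f ∈ S.Ov)
    (h : S.ρ ⟨f, hf⟩ ≠ 0) : f⁻¹ ∈ S.Ov ∧ f ≠ 0 := by
  have hu : IsUnit (⟨f, hf⟩ : S.Ov) := by
    by_contra hnu
    exact h ((S.ρ_eq_zero_iff _).mpr hnu)
  have hne : f ≠ 0 := by
    rintro rfl
    apply h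
    have : (⟨0, hf⟩ : S.Ov) = 0 := rfl
    rw [this, map_zero]
  refine ⟨?_, hne⟩
  obtain ⟨u, hu⟩ := hu
  have h1 : ((↑u⁻¹ : S.Ov) : F) * f = 1 := by
    have h2 := congrArg Subtype.val u.inv_mul
    rw [hu] at h2
    exact h2
  have h3 : f⁻¹ = ((↑u⁻¹ : S.Ov) : F) := (eq_inv_of_mul_eq_one_left h1).symm
  rw [h3]
  exact (↑u⁻¹ : S.Ov).2

namespace BaseFn

variable {S : RedSetup K F k Fk} (B : BaseFn S)

/-- the reduced base function -/
def y : Fk := S.ρ ⟨B.x, B.x_mem⟩

theorem y_sub_ne_zero (c : k) : B.y - algebraMap k Fk c ≠ 0 :=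
  fun h => B.nonconst c (sub_eq_zero.mp h)

/-- the value of `ρ x` at a good place; `ρ x - c` is a local parameter there. -/
theorem exists_value (hk : IsRRField k Fk) {Q : Place k Fk} (hQ : Q ∉ B.bad) :
    ∃ c : k, Q.ord (B.y - algebraMap k Fk c) = 1 := by
  obtain ⟨c, hc | hc⟩ := exists_const_sub hk Q (B.regular Q hQ)
  · exact absurd hc (B.nonconst c)
  · exact ⟨c, B.unramified Q hQ c hc⟩

theorem ord_y_sub_nonneg {Q : Place k Fk} (hQ : Q ∉ B.bad) (c : k) :
    0 ≤ Q.ord (B.y - algebraMap k Fk c) := by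
  apply Fermat.Agent.S24Res.ord_nonneg_of_mem
  exact sub_mem (Fermat.Agent.S24Res.mem_of_ord_nonneg Q (B.regular Q hQ)) (Q.algebraMap_mem' c)

theorem t_mem (a : S.A) : B.x - algebraMap K F (a : K) ∈ S.Ov :=
  sub_mem B.x_mem ((S.mem_Ov_iff a).mpr a.2)

theorem rho_t (a : S.A) :
    S.ρ ⟨B.x - algebraMap K F (a : K), B.t_mem a⟩ = B.y - algebraMap k Fk (S.res a) := by
  have h1 : (⟨B.x - algebraMap K F (a : K), B.t_mem a⟩ : S.Ov) =
      ⟨B.x, B.x_mem⟩ - ⟨algebraMap K F (a : K), (S.mem_Ov_iff a).mpr a.2⟩ := rfl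
  rw [h1, map_sub, S.ρ_algebraMap (a : K) a.2]
  rfl

/-- `x - a` has a zero in the residue disc of `Q` if `ρ x - res a` vanishes at `Q`. -/
theorem exists_zero (a : S.A) (Q : Place k Fk)
    (hQ : 0 < Q.ord (B.y - algebraMap k Fk (S.res a))) :
    ∃ R : Place K F, S.r R = Q ∧ 0 < R.ord (B.x - algebraMap K F (a : K)) := by
  have hρ := B.rho_t a
  have hne : S.ρ ⟨_, B.t_mem a⟩ ≠ 0 := by
    rw [hρ]
    exact B.y_sub_ne_zero _
  obtain ⟨hinv, hne0⟩ := inv_mem_of_rho_ne_zero S (B.t_mem a) hne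
  have hpush := S.push _ (B.t_mem a) hinv hne0 Q
  rw [hρ] at hpush
  obtain ⟨R, hR, hpos⟩ := exists_of_mapDomain_pos S.r _ Q (by rw [hpush]; exact hQ)
  rw [divOf_apply] at hpos
  exact ⟨R, hR, hpos⟩

/-- `x - a` has no pole in the residue disc of a good place. -/
theorem t_reg (a : S.A) {P : Place K F} (hP : S.r P ∉ B.bad) :
    0 ≤ P.ord (B.x - algebraMap K F (a : K)) := by
  have hx : 0 ≤ P.ord B.x := by
    by_contra hneg
    push Not at hneg
    have h1 := B.no_cancel P hneg
    have h2 := B.regular _ hP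
    omega
  apply Fermat.Agent.S24Res.ord_nonneg_of_mem
  exact sub_mem (Fermat.Agent.S24Res.mem_of_ord_nonneg P hx) (P.algebraMap_mem' _)

/-- two places of `Fk` where `ρ x` takes the same value. -/
def SameVal (Q Q' : Place k Fk) : Prop :=
  ∃ c : k, 0 < Q.ord (B.y - algebraMap k Fk c) ∧ 0 < Q'.ord (B.y - algebraMap k Fk c)

theorem finite_sameVal (hk : IsRRField k Fk) {Q : Place k Fk} (hQ : Q ∉ B.bad) :
    {P : Place k Fk | B.SameVal Q P}.Finite := by
  obtain ⟨c, hc⟩ := B.exists_value hk hQ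
  refine (finite_zeros hk (B.y - algebraMap k Fk c)).subset ?_
  rintro P ⟨c', h1, h2⟩
  have : c' = c := value_unique Q B.y h1 (by rw [hc]; norm_num)
  subst this
  exact h2

/-- a good set of places of `Fk`. -/
structure GoodSet (T : Finset (Place k Fk)) : Prop where
  disj : ∀ Q ∈ T, Q ∉ B.bad
  ell_eq : ell (sumPlaces T) = 1
  distinct : ∀ Q ∈ T, ∀ Q' ∈ T, Q ≠ Q' → ¬ B.SameVal Q Q'

theorem exists_goodSet (hk : IsRRField k Fk) [Infinite (Place k Fk)]
    (n : ℕ) (hn : n ≤ genusFF k Fk) :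
    ∃ T : Finset (Place k Fk), T.card = n ∧ B.GoodSet T := by
  classical
  induction n with
  | zero =>
    refine ⟨∅, rfl, ?_, ?_, ?_⟩
    · intro Q hQ; simp at hQ
    · rw [sumPlaces_empty, ell_zero hk]
    · intro Q hQ; simp at hQ
  | succ n ih =>
    obtain ⟨T, hcard, hT⟩ := ih (by omega)
    have hD : Divisor.degree (sumPlaces T) + 1 - (genusFF k Fk : ℤ) < (ell (sumPlaces T) : ℤ) := by
      rw [degree_sumPlaces hk, hcard, hT.ell_eq]
      push_cast
      omega
    have hfin : {P : Place k Fk | ∃ Q ∈ T, B.SameVal Q P}.Finite := by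
      have : {P : Place k Fk | ∃ Q ∈ T, B.SameVal Q P} =
          ⋃ Q ∈ (T : Set (Place k Fk)), {P | B.SameVal Q P} := by
        ext P; simp
      rw [this]
      exact Set.Finite.biUnion T.finite_toSet fun Q hQ => B.finite_sameVal hk (hT.disj Q hQ)
    obtain ⟨P, hP, hPell⟩ := exists_place_ell_add_single_eq hk (sumPlaces T) hD
      (B.bad ∪ T ∪ hfin.toFinset)
    simp only [Finset.mem_union, Set.Finite.mem_toFinset, Set.mem_ofPred_eq, not_or, not_exists,
      not_and] at hP
    obtain ⟨⟨hPbad, hPT⟩, hPsame⟩ := hP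
    refine ⟨Finset.cons P T hPT, by rw [Finset.card_cons, hcard], ?_, ?_, ?_⟩
    · intro Q hQ
      rcases Finset.mem_cons.mp hQ with rfl | hQ
      · exact hPbad
      · exact hT.disj Q hQ
    · rw [sumPlaces_cons hPT, hPell, hT.ell_eq]
    · intro Q hQ Q' hQ' hne
      rcases Finset.mem_cons.mp hQ with h1 | h1
      · rcases Finset.mem_cons.mp hQ' with h2 | h2
        · exact absurd (h1.trans h2.symm) hne
        · rw [h1]
          rintro ⟨c, h3, h4⟩
          exact hPsame Q' h2 ⟨c, h4, h3⟩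
      · rcases Finset.mem_cons.mp hQ' with h2 | h2
        · rw [h2]
          exact hPsame Q h1
        · exact hT.distinct Q h1 Q' h2 hne

/-- **Construction of `NSData`.** -/
theorem nonempty_nsData (B : BaseFn S) (hk : IsRRField k Fk) [Infinite k]
    (hres : Function.Surjective S.res)
    (g : ℕ) (hg : g ≤ genusFF k Fk) : Nonempty (NSData S g) := by
  classical
  have : Infinite (Place k Fk) := infinite_place hk
  obtain ⟨T, hcard, hT⟩ := B.exists_goodSet hk g hg
  obtain ⟨Q₀, hQ₀⟩ := Infinite.exists_notMem_finset (B.bad ∪ T)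
  rw [Finset.mem_union, not_or] at hQ₀
  -- data at each good place
  have hdata : ∀ Q : Place k Fk, Q ∉ B.bad → ∃ (a : S.A) (R : Place K F),
      Q.ord (B.y - algebraMap k Fk (S.res a)) = 1 ∧ S.r R = Q ∧
        0 < R.ord (B.x - algebraMap K F (a : K)) := by
    intro Q hQ
    obtain ⟨c, hc⟩ := B.exists_value hk hQ
    obtain ⟨a, rfl⟩ := hres c
    obtain ⟨R, hR, hpos⟩ := B.exists_zero a Q (by rw [hc]; norm_num)
    exact ⟨a, R, hc, hR, hpos⟩
  haveI : Nonempty (Place K F) := nonempty_place S.hF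
  choose! a R hord hrR hRpos using hdata
  set e : T ≃ Fin g := Finset.equivFinOfCardEq hcard with he
  have hmemT : ∀ i, ((e.symm i : T) : Place k Fk) ∈ T := fun i => (e.symm i).2
  have hgood : ∀ i, ((e.symm i : T) : Place k Fk) ∉ B.bad := fun i => hT.disj _ (hmemT i)
  refine ⟨{
    Rb := fun i => (e.symm i : T)
    Rb_inj := fun i j hij => e.symm.injective (Subtype.ext hij)
    R := fun i => R (e.symm i : T)
    r_R := fun i => hrR _ (hgood i)
    t := fun i => B.x - algebraMap K F (a (e.symm i : T) : K)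
    t_mem := fun i => B.t_mem _
    ord_t_self := fun i => by
      rw [B.rho_t]
      exact hord _ (hgood i)
    ord_t_other := fun i j hij => by
      rw [B.rho_t]
      have h0 := B.ord_y_sub_nonneg (hgood j) (S.res (a (e.symm i : T)))
      have hne : ((e.symm i : T) : Place k Fk) ≠ (e.symm j : T) := fun h =>
        hij (e.symm.injective (Subtype.ext h))
      have hns := hT.distinct _ (hmemT i) _ (hmemT j) hne
      by_contra hcon
      apply hns
      refine ⟨S.res (a (e.symm i : T)), ?_, ?_⟩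
      · rw [hord _ (hgood i)]; norm_num
      · omega
    t_reg := fun i j P hP => B.t_reg _ (by rw [hP]; exact hgood j)
    t_R := fun i => hRpos _ (hgood i)
    nonspecial := fun f hf h1 h2 => by
      refine eq_algebraMap_of_mem_of_ell_eq_one hk (sumPlaces_nonneg T) hT.ell_eq ?_
      rw [mem_riemannRochSpace_iff]
      intro v
      right
      by_cases hv : v ∈ T
      · rw [sumPlaces_apply_of_mem hv]
        have := h2 (e ⟨v, hv⟩)
        simpa using this
      · rw [sumPlaces_apply_of_not_mem hv]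
        have := h1 v (fun i hi => hv (hi ▸ hmemT i))
        simpa using this
    P0 := R Q₀
    r_P0 := fun i h => hQ₀.2 (by
      rw [hrR _ hQ₀.1] at h
      rw [h]
      exact hmemT i) }⟩

end BaseFn

end Fermat.Agent.S18Key
end
end MergeWrap_S18_NSBuild
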